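import Mathlib.RingTheory.Algebraic.Integral
import Mathlib.RingTheory.PowerSeries.Derivative
import Fermat.Agent.Christol.Applications

/-!
# The product of Carlitz

`P = ∏ (1 - u ^ (q ^ k - 1))` over `k ≥ 1` in `F[[u]]`; as `q = 0` in `F`, `u P' / P` has as
coefficient of `u ^ n` the number of `k` with `q ^ k - 1 ∣ n`.
-/

set_option autoImplicit false

noncomputable section

open Finset

namespace FA.Wade

variable {F : Type*} [Field F] [Fintype F]

local notation "q" => Fintype.card F

/-- The partial product. -/
def partialProduct (F : Type*) [Field F] [Fintype F] (N : ℕ) : PowerSeries F :=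
  ∏ k ∈ Icc 1 N, (1 - PowerSeries.X ^ (Fintype.card F ^ k - 1))

/-- The product. -/
def carlitzProduct (F : Type*) [Field F] [Fintype F] : PowerSeries F :=
  PowerSeries.mk fun n => PowerSeries.coeff n (partialProduct F n)

/-- The series `∑ u ^ n` over the positive multiples `n` of `m`. -/
def multiplesSeries (F : Type*) [Field F] (m : ℕ) : PowerSeries F :=
  PowerSeries.mk fun n => if 0 < n ∧ m ∣ n then 1 else 0

theorem le_pow_card_sub_one (k : ℕ) : k ≤ q ^ k - 1 := by
  have := Nat.lt_pow_self (Fintype.one_lt_card (α := F)) (n := k)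
  omega

theorem coeff_partialProduct {n N : ℕ} (h : n ≤ N) :
    PowerSeries.coeff n (partialProduct F N) = PowerSeries.coeff n (carlitzProduct F) := by
  induction N, h using Nat.le_induction with
  | base => rw [carlitzProduct, PowerSeries.coeff_mk]
  | succ N hN ih =>
    rw [← ih, partialProduct, partialProduct, Finset.prod_Icc_succ_top (by omega), mul_sub, mul_one,
      map_sub, PowerSeries.coeff_mul_X_pow', if_neg (by
        have := le_pow_card_sub_one (F := F) (N + 1)
        omega), sub_zero]

theorem constantCoeff_carlitzProduct : PowerSeries.constantCoeff (carlitzProduct F) = 1 := by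
  rw [← PowerSeries.coeff_zero_eq_constantCoeff_apply, carlitzProduct, PowerSeries.coeff_mk]
  simp [partialProduct]

omit [Fintype F] in
theorem one_sub_pow_mul_multiplesSeries {m : ℕ} (hm : 0 < m) :
    (1 - PowerSeries.X ^ m) * multiplesSeries F m = PowerSeries.X ^ m := by
  ext n
  rw [sub_mul, one_mul, map_sub, PowerSeries.coeff_X_pow_mul', PowerSeries.coeff_X_pow]
  simp only [multiplesSeries, PowerSeries.coeff_mk]
  rcases lt_trichotomy n m with h | h | h
  · rw [if_neg (by rintro ⟨h1, h2⟩; have := Nat.le_of_dvd h1 h2; omega), if_neg (by omega),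
      if_neg (by omega), sub_zero]
  · subst h
    simp [hm]
  · have h' : m ∣ n - m ↔ m ∣ n := by
      conv_rhs => rw [show n = n - m + m by omega, Nat.dvd_add_self_right]
    rw [if_pos (show m ≤ n by omega), if_neg (show ¬n = m by omega)]
    by_cases hd : m ∣ n
    · rw [if_pos ⟨by omega, hd⟩, if_pos ⟨by omega, h'.2 hd⟩, sub_self]
    · rw [if_neg fun hh => hd hh.2, if_neg fun hh => hd (h'.1 hh.2), sub_zero]

theorem X_mul_derivative_partialProduct (N : ℕ) :
    PowerSeries.X * PowerSeries.derivative F (partialProduct F N) =
      (∑ k ∈ Icc 1 N, multiplesSeries F (q ^ k - 1)) * partialProduct F N := by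
  induction N with
  | zero => simp [partialProduct]
  | succ N ih =>
    set m := q ^ (N + 1) - 1 with hm
    have hm0 : 0 < m := lt_of_lt_of_le (by omega) (le_pow_card_sub_one (F := F) (N + 1))
    have hcast : ((m : ℕ) : F) = -1 := by
      rw [hm, Nat.cast_sub (Nat.one_le_pow _ _ Fintype.card_pos), Nat.cast_pow,
        FiniteField.cast_card_eq_zero, zero_pow (by omega), Nat.cast_one, zero_sub]
    have hd : PowerSeries.X * PowerSeries.derivative F (1 - PowerSeries.X ^ m : PowerSeries F) =
        PowerSeries.X ^ m := by
      obtain ⟨j, hj⟩ : ∃ j, m = j + 1 := ⟨m - 1, by omega⟩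
      rw [map_sub, Derivation.map_one_eq_zero, Derivation.leibniz_pow, PowerSeries.derivative_X,
        nsmul_eq_mul, smul_eq_mul, mul_one, zero_sub, ← map_natCast (PowerSeries.C (R := F)),
        hcast, map_neg, map_one, neg_one_mul, neg_neg, hj, Nat.add_sub_cancel, pow_succ']
    rw [partialProduct, Finset.prod_Icc_succ_top (by omega),
      Finset.sum_Icc_succ_top (by omega), ← hm, ← partialProduct, Derivation.leibniz, smul_eq_mul,
      smul_eq_mul]
    linear_combination (partialProduct F N) * hd + (1 - PowerSeries.X ^ m) * ih -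
      partialProduct F N * one_sub_pow_mul_multiplesSeries (F := F) hm0

/-- The coefficients of `u P' / P`. -/
def logSeries (F : Type*) [Field F] [Fintype F] : PowerSeries F :=
  PowerSeries.mk fun n => if 0 < n then
    ((#((Icc 1 n).filter fun k => Fintype.card F ^ k - 1 ∣ n) : ℕ) : F) else 0

theorem coeff_sum_multiplesSeries {j n : ℕ} (h : j ≤ n) :
    PowerSeries.coeff j (∑ k ∈ Icc 1 n, multiplesSeries F (q ^ k - 1)) =
      PowerSeries.coeff j (logSeries F) := by
  simp only [map_sum, multiplesSeries, logSeries, PowerSeries.coeff_mk]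
  rcases Nat.eq_zero_or_pos j with rfl | hj
  · simp
  simp only [hj, true_and, if_true]
  rw [Finset.sum_boole]
  congr 2
  ext k
  simp only [mem_filter, mem_Icc, and_congr_left_iff]
  intro hk
  have := Nat.le_of_dvd hj hk
  have := le_pow_card_sub_one (F := F) k
  omega

theorem logSeries_mul_carlitzProduct :
    logSeries F * carlitzProduct F = PowerSeries.mk fun n =>
      PowerSeries.coeff n (carlitzProduct F) * (n : F) := by
  ext n
  have h := congrArg (PowerSeries.coeff n) (X_mul_derivative_partialProduct (F := F) n)
  have e : PowerSeries.coeff n (PowerSeries.X * PowerSeries.derivative F (partialProduct F n)) =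
      PowerSeries.coeff n (carlitzProduct F) * (n : F) := by
    rcases n with _ | n
    · simp
    · rw [PowerSeries.coeff_succ_X_mul, PowerSeries.coeff_derivative,
        coeff_partialProduct le_rfl, Nat.cast_succ]
  rw [PowerSeries.coeff_mk, ← e, h, PowerSeries.coeff_mul, PowerSeries.coeff_mul]
  refine Finset.sum_congr rfl fun p hp => ?_
  rw [Finset.HasAntidiagonal.mem_antidiagonal] at hp
  rw [coeff_sum_multiplesSeries (show p.1 ≤ n by omega),
    coeff_partialProduct (show p.2 ≤ n by omega)]

end FA.Wade

end
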