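import Mathlib.FieldTheory.IsAlgClosed.AlgebraicClosure
import Mathlib.NumberTheory.PrimesCongruentOne
import Mathlib.RingTheory.LaurentSeries
import Fermat.Agent.Wade.Product

/-!
# Wade's theorem

Were `P` algebraic, so would be `u P'` and hence `u P' / P`; by Christol the sequence
`k ↦ #{l : q ^ l - 1 ∣ q ^ k - 1}`, the number of divisors of `k`, would be eventually periodic in
`F`, against primes `ℓ ≡ 1` and their squares.
-/

set_option autoImplicit false

noncomputable section

open Finset Polynomial

namespace FA.Wade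

variable {F : Type*} [Field F] [Fintype F]

local notation "q" => Fintype.card F

theorem isAlgebraic_natSeries :
    IsAlgebraic F[X] (PowerSeries.mk fun n => (n : F) : PowerSeries F) := by
  rw [Christol.christol]
  refine ((Set.finite_range fun c : F × F => PowerSeries.mk fun n => c.1 * (n : F) + c.2)).subset ?_
  rintro _ ⟨k, r, -, rfl⟩
  refine ⟨(((q ^ k : ℕ) : F), (r : F)), ?_⟩
  ext n
  simp

theorem pow_card_sub_one_dvd_iff {l k : ℕ} : q ^ l - 1 ∣ q ^ k - 1 ↔ l ∣ k := by
  refine ⟨fun h => ?_, fun h => Nat.pow_sub_one_dvd_pow_sub_one q h⟩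
  have h1 := Nat.gcd_eq_left h
  rw [Nat.pow_sub_one_gcd_pow_sub_one] at h1
  have hq := Fintype.one_lt_card (α := F)
  have h2 : q ^ Nat.gcd l k = q ^ l := by
    have := Nat.one_le_pow (Nat.gcd l k) q (by omega)
    have := Nat.one_le_pow l q (by omega)
    omega
  exact Nat.pow_right_injective hq h2 ▸ Nat.gcd_dvd_right l k

theorem coeff_logSeries_pow_sub_one {k : ℕ} (hk : 0 < k) :
    PowerSeries.coeff (q ^ k - 1) (logSeries F) = ((#(k.divisors) : ℕ) : F) := by
  have hle := le_pow_card_sub_one (F := F) k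
  rw [logSeries, PowerSeries.coeff_mk, if_pos (by omega)]
  congr 2
  ext l
  simp only [mem_filter, mem_Icc, Nat.mem_divisors, pow_card_sub_one_dvd_iff]
  constructor
  · exact fun h => ⟨h.2, hk.ne'⟩
  · rintro ⟨h, -⟩
    have := Nat.le_of_dvd hk h
    have := Nat.pos_of_dvd_of_pos h hk
    exact ⟨⟨by omega, by omega⟩, h⟩

/-- The sequence of the coefficients of `u P' / P` is not automatic. -/
theorem transcendental_logSeries : Transcendental F[X] (logSeries F) := by
  intro halg
  rw [Christol.christol, ← Christol.seqKernel_finite_iff] at halg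
  have hq : 0 < q := Fintype.card_pos
  set s : ℕ → ℕ → F := fun k n => PowerSeries.coeff (q ^ k * n + (q ^ k - 1)) (logSeries F) with hs
  have hmem : ∀ k, s k ∈ Christol.seqKernel (logSeries F) := fun k =>
    ⟨k, q ^ k - 1, Nat.sub_lt (pow_pos hq k) one_pos, rfl⟩
  obtain ⟨i, j, hij, he⟩ := Set.Finite.exists_lt_map_eq_of_forall_mem hmem halg
  have hstep : ∀ k n, s (k + 1) n = s k (q * n + (q - 1)) := fun k n => by
    simp only [hs]
    congr 2
    have h1 := Nat.one_le_pow k q hq
    zify [h1, Nat.one_le_pow (k + 1) q hq, hq, Nat.one_le_of_lt hq]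
    ring
  have hper : ∀ m, s (i + m) = s (j + m) := fun m => by
    induction m with
    | zero => exact he
    | succ m ih => funext n; rw [← add_assoc, ← add_assoc, hstep, hstep, ih]
  have hval : ∀ k, 0 < k → s k 0 = ((#(k.divisors) : ℕ) : F) := fun k hk => by
    simp only [hs, mul_zero, zero_add]
    exact coeff_logSeries_pow_sub_one hk
  set d := j - i with hd
  have hperd : ∀ k, i ≤ k → ∀ c, s k 0 = s (k + c * d) 0 := fun k hk c => by
    induction c with
    | zero => simp
    | succ c ih =>
      rw [ih, show k + c * d = i + (k + c * d - i) by omega, hper]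
      congr 1
      rw [Nat.succ_mul]
      omega
  obtain ⟨ℓ, hℓ, hℓi, hmod⟩ := Nat.exists_prime_gt_modEq_one (k := d) (i + 1) (by omega)
  obtain ⟨c, hc⟩ : d ∣ ℓ - 1 := (Nat.modEq_iff_dvd' hℓ.one_lt.le).1 hmod.symm
  have h1 := hperd ℓ (by omega) (ℓ * c)
  rw [show ℓ + ℓ * c * d = ℓ ^ 2 by
      rw [mul_assoc, mul_comm c d, ← hc, sq, Nat.mul_sub, mul_one]
      have := Nat.le_mul_self ℓ
      omega,
    hval ℓ hℓ.pos, hval _ (pow_pos hℓ.pos 2), hℓ.divisors, Nat.divisors_prime_pow hℓ,
    Finset.card_map, Finset.card_range, Finset.card_pair hℓ.one_lt.ne] at h1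
  push_cast at h1
  exact one_ne_zero (by linear_combination -h1 : (1 : F) = 0)

/-- **Wade's theorem**: the product of Carlitz is transcendental. -/
theorem transcendental_carlitzProduct : Transcendental F[X] (carlitzProduct F) := by
  intro halg
  have hne : carlitzProduct F ≠ 0 := fun h => by
    simpa [h] using constantCoeff_carlitzProduct (F := F)
  refine transcendental_logSeries (IsAlgebraic.of_mul (mem_nonZeroDivisors_of_ne_zero hne) halg ?_)
  rw [mul_comm (carlitzProduct F) (logSeries F)] at *
  rw [logSeries_mul_carlitzProduct]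
  have h := Christol.isAlgebraic_hadamard halg (isAlgebraic_natSeries (F := F))
  simpa only [PowerSeries.coeff_mk] using h

/-- **The period of Carlitz is transcendental**: `w` with `w ^ (q - 1) u ^ q P ^ (q - 1) = -1`. -/
theorem transcendental_carlitzPeriod {L : Type*} [Field L] [Algebra F[X] L]
    [Algebra (PowerSeries F) L] [IsScalarTower F[X] (PowerSeries F) L]
    [FaithfulSMul (PowerSeries F) L] {w : L}
    (hw : w ^ (q - 1) * algebraMap (PowerSeries F) L
      (PowerSeries.X ^ q * carlitzProduct F ^ (q - 1)) = -1) : Transcendental F[X] w := by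
  intro halg
  have hq : 0 < q - 1 := Nat.sub_pos_of_lt Fintype.one_lt_card
  have hinj := FaithfulSMul.algebraMap_injective (PowerSeries F) L
  refine transcendental_carlitzProduct (F := F) (IsAlgebraic.of_pow hq ?_)
  refine IsAlgebraic.of_mul (y := PowerSeries.X ^ q)
    (mem_nonZeroDivisors_of_ne_zero (pow_ne_zero _ PowerSeries.X_ne_zero)) ?_ ?_
  · rw [← Polynomial.coe_X, ← Polynomial.coe_pow, ← Christol.algebraMap_eq_coe]
    exact isAlgebraic_algebraMap _
  · refine (isAlgebraic_algHom_iff (IsScalarTower.toAlgHom F[X] (PowerSeries F) L) hinj).1 ?_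
    simp only [IsScalarTower.coe_toAlgHom']
    have h : IsAlgebraic F[X] (-(w ^ (q - 1))) := (halg.pow _).neg
    refine IsAlgebraic.of_mul (mem_nonZeroDivisors_of_ne_zero ?_) h ?_
    · intro h0
      rw [neg_eq_zero] at h0
      rw [h0, zero_mul] at hw
      exact neg_ne_zero.2 one_ne_zero hw.symm
    · rw [neg_mul, hw, neg_neg]
      exact isAlgebraic_one

/-- Such periods exist. -/
theorem exists_carlitzPeriod :
    ∃ w : AlgebraicClosure (LaurentSeries F), w ^ (q - 1) * algebraMap (LaurentSeries F) _
      (algebraMap (PowerSeries F) (LaurentSeries F)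
        (PowerSeries.X ^ q * carlitzProduct F ^ (q - 1))) = -1 := by
  set a := algebraMap (LaurentSeries F) (AlgebraicClosure (LaurentSeries F))
    (algebraMap (PowerSeries F) (LaurentSeries F)
      (PowerSeries.X ^ q * carlitzProduct F ^ (q - 1))) with ha
  have h0 : a ≠ 0 := by
    rw [ha]
    refine (_root_.map_ne_zero _).2 ((map_ne_zero_iff _ (FaithfulSMul.algebraMap_injective _ _)).2
      (mul_ne_zero (pow_ne_zero _ PowerSeries.X_ne_zero) (pow_ne_zero _ fun h => ?_)))
    simpa [h] using constantCoeff_carlitzProduct (F := F)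
  obtain ⟨w, hw⟩ := IsAlgClosed.exists_pow_nat_eq (-1 / a)
    (Nat.sub_pos_of_lt (Fintype.one_lt_card (α := F)))
  exact ⟨w, by rw [hw, div_mul_cancel₀ _ h0]⟩

end FA.Wade

end
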